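import Fermat.Agent.S33.OfWild
import Fermat.Agent.S33.WildFinal

/-!
# S59 leaf mirror of S33 (helper80, pattern of helper35)

`s59leaf_s33` = the statement and the body of `Fermat.Agent.S33.result`, verbatim, WITHOUT importing
the root file `Fermat/Agent/S33.lean` (which is switched to the ZB bundles): the S59 files call
this theorem instead of `Fermat.Agent.S33.result`.
-/

set_option autoImplicit false
open CuspForm CuspForm.HeckeGaloisRepDatum

namespace Fermat.Agent.S59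

open Fermat.Agent.S33 in
theorem s59leaf_s33 {p : ℕ} {N : ℕ} [NeZero N] {S : Finset ℕ}
    {𝒪 : Type} [CommRing 𝒪] [IsDomain 𝒪] [IsDiscreteValuationRing 𝒪]
    [IsAdicComplete (IsLocalRing.maximalIdeal 𝒪) 𝒪]
    {θ : CuspForm.heckeAlgebra N 2 (↑S : Set ℕ) →+* IsLocalRing.ResidueField 𝒪}
    {T : Type} [CommRing T] [IsLocalRing T] [IsNoetherianRing T]
    [IsAdicComplete (IsLocalRing.maximalIdeal T) T] [Algebra 𝒪 T] [IsLocalHom (algebraMap 𝒪 T)]
    [Module.Finite 𝒪 T] [Module.Free 𝒪 T]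
    [Finite (IsLocalRing.ResidueField 𝒪)] [CharZero 𝒪]
    (hp : p.Prime) (hp2 : p ≠ 2) (hp𝒪 : (p : 𝒪) ∈ IsLocalRing.maximalIdeal 𝒪)
    (hN : p ∣ N ∧ ¬ p ^ 2 ∣ N)
    (hNS : ∀ q : ℕ, q.Prime → q ∣ N → q ∈ S)
    (H : CuspForm.HeckeGaloisRepDatum N (↑S : Set ℕ) 𝒪 θ T)
    (hres : (GaloisRepAdic.ofResidualGaloisRep H.ρ.residual).IsOrdinaryAt p) :
    H.ρ.IsOrdinaryAt p :=
  s33_of_wild stmtWildT hp hp2 hp𝒪 hN hNS H hres

end Fermat.Agent.S59
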