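import Fermat.Agent.S34.OfInputs
import Fermat.Agent.INJ.InjAll
import Fermat.Agent.ES.TorsionUnifProved
import Fermat.Agent.UNIP.MGChartsBeta0All

/-!
# S59 leaf mirror of S34 (helper80, pattern of helper35)

`s59leaf_s34` = the statement and the body of `Fermat.Agent.S34.result`, verbatim, WITHOUT importing
the root file `Fermat/Agent/S34.lean` (which is switched to the ZB bundles): the S59 files call
this theorem instead of `Fermat.Agent.S34.result`.
-/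

set_option autoImplicit false
open IsLocalRing
open CuspForm CuspForm.HeckeGaloisRepDatum

namespace Fermat.Agent.S59

open Fermat.Agent.S34 in
theorem s59leaf_s34
    {𝒪 : Type} [CommRing 𝒪] [IsDomain 𝒪] [IsDiscreteValuationRing 𝒪]
    [IsAdicComplete (maximalIdeal 𝒪) 𝒪] [Finite (ResidueField 𝒪)] [CharZero 𝒪]
    {p : ℕ} (hp : p.Prime) (hp𝒪 : (p : 𝒪) ∈ maximalIdeal 𝒪)
    {N : ℕ} [NeZero N] {S : Finset ℕ} (hpS : p ∈ S) (hNS : ∀ q : ℕ, q.Prime → q ∣ N → q ∈ S)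
    {θ : CuspForm.heckeAlgebra N 2 (↑S : Set ℕ) →+* ResidueField 𝒪}
    {T : Type} [CommRing T] [IsLocalRing T] [IsNoetherianRing T]
    [IsAdicComplete (maximalIdeal T) T] [Algebra 𝒪 T] [IsLocalHom (algebraMap 𝒪 T)]
    [Module.Finite 𝒪 T] [Module.Free 𝒪 T]
    (H : CuspForm.HeckeGaloisRepDatum N (↑S : Set ℕ) 𝒪 θ T)
    (q : ℕ) (hq : q.Prime) (hqp : q ≠ p) (hqN : q ∣ N) (hq2 : ¬ q ^ 2 ∣ N) :
    H.ρ.IsUnipotentOnInertiaAt q := by
  exact s34_of_inputs Fermat.Agent.INJ.injAll_stmtINJAll Fermat.Agent.UNIP.mgcb_stmtUnipKummer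
    hp hp𝒪 (Fermat.Agent.ES.torsionUnif_proved N p hp.pos) hpS hNS H q hq hqp hqN hq2

end Fermat.Agent.S59
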